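/-
S15 / Dict / AN : homothety of lattices.  Architect helper260.
-/
import Mathlib

set_option autoImplicit false

namespace Fermat.Agent.S15.Dict.AN

/-- The period pair `μ L`. -/
noncomputable def scale (μ : ℂ) (hμ : μ ≠ 0) (L : PeriodPair) : PeriodPair where
  ω₁ := μ * L.ω₁
  ω₂ := μ * L.ω₂
  indep := by
    rw [LinearIndependent.pair_iff]
    intro s t h
    refine LinearIndependent.pair_iff.mp L.indep s t ?_
    have h1 : μ * (s • L.ω₁ + t • L.ω₂) = 0 := by
      rw [← h]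
      simp only [Complex.real_smul]
      ring
    exact (mul_eq_zero.1 h1).resolve_left hμ

variable (μ : ℂ) (hμ : μ ≠ 0) (L : PeriodPair)

@[simp] theorem scale_ω₁ : (scale μ hμ L).ω₁ = μ * L.ω₁ := rfl
@[simp] theorem scale_ω₂ : (scale μ hμ L).ω₂ = μ * L.ω₂ := rfl

theorem mul_mem_scale_lattice {x : ℂ} : μ * x ∈ (scale μ hμ L).lattice ↔ x ∈ L.lattice := by
  rw [PeriodPair.mem_lattice, PeriodPair.mem_lattice]
  constructor
  · rintro ⟨m, n, h⟩
    refine ⟨m, n, mul_left_cancel₀ hμ ?_⟩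
    rw [← h, scale_ω₁, scale_ω₂]
    ring
  · rintro ⟨m, n, h⟩
    refine ⟨m, n, ?_⟩
    rw [← h, scale_ω₁, scale_ω₂]
    ring

theorem mem_scale_lattice {x : ℂ} : x ∈ (scale μ hμ L).lattice ↔ μ⁻¹ * x ∈ L.lattice := by
  rw [← mul_mem_scale_lattice μ hμ L, mul_inv_cancel_left₀ hμ]

/-- The bijection `l ↦ μ l` between the lattices. -/
theorem exists_scale_equiv :
    ∃ e : L.lattice ≃ (scale μ hμ L).lattice, ∀ l, ((e l : (scale μ hμ L).lattice) : ℂ) = μ * l := by
  refine ⟨{ toFun := fun l => ⟨μ * l, (mul_mem_scale_lattice μ hμ L).2 l.2⟩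
            invFun := fun l => ⟨μ⁻¹ * l, (mem_scale_lattice μ hμ L).1 l.2⟩
            left_inv := fun l => Subtype.ext (inv_mul_cancel_left₀ hμ _)
            right_inv := fun l => Subtype.ext (mul_inv_cancel_left₀ hμ _) }, fun l => rfl⟩

theorem G_scale (r : ℕ) : (scale μ hμ L).G r = (μ ^ r)⁻¹ * L.G r := by
  obtain ⟨e, he⟩ := exists_scale_equiv μ hμ L
  simp only [PeriodPair.G]
  rw [← e.tsum_eq, ← tsum_mul_left]
  refine tsum_congr fun l => ?_
  rw [he, mul_pow, mul_inv]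

theorem g₂_scale : (scale μ hμ L).g₂ = (μ ^ 4)⁻¹ * L.g₂ := by
  simp only [PeriodPair.g₂, G_scale]
  ring

theorem g₃_scale : (scale μ hμ L).g₃ = (μ ^ 6)⁻¹ * L.g₃ := by
  simp only [PeriodPair.g₃, G_scale]
  ring

theorem P_scale (z : ℂ) :
    (scale μ hμ L).weierstrassP (μ * z) = (μ ^ 2)⁻¹ * L.weierstrassP z := by
  obtain ⟨e, he⟩ := exists_scale_equiv μ hμ L
  simp only [PeriodPair.weierstrassP]
  rw [← e.tsum_eq, ← tsum_mul_left]
  refine tsum_congr fun l => ?_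
  rw [he, ← mul_sub, mul_pow, mul_pow, one_div, one_div, one_div, one_div, mul_inv, mul_inv,
    ← mul_sub]

end Fermat.Agent.S15.Dict.AN
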