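/-
S15 / Dict / AN : the second derivative of `℘`.  Architect helper260.
-/
import Fermat.Agent.S15.Dict.AN.Tools.Order
import Fermat.Agent.S15.Dict.AN.Tools.POrder

set_option autoImplicit false

namespace Fermat.Agent.S15.Dict.AN

open Filter Topology

/-- the identity at the points where `℘' ≠ 0`: differentiate the Weierstrass equation. -/
private theorem Deriv_key (L : PeriodPair) {w : ℂ} (hw : w ∉ L.lattice)
    (hne : L.derivWeierstrassP w ≠ 0) :
    deriv L.derivWeierstrassP w = 6 * L.weierstrassP w ^ 2 - L.g₂ / 2 := by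
  have hopen : IsOpen ((L.lattice : Set ℂ)ᶜ) := L.isClosed_lattice.isOpen_compl
  have h1 : HasDerivAt L.weierstrassP (L.derivWeierstrassP w) w := by
    have h := (analyticAt_P L hw).differentiableAt.hasDerivAt
    rwa [L.deriv_weierstrassP] at h
  have h2 : HasDerivAt L.derivWeierstrassP (deriv L.derivWeierstrassP w) w :=
    (analyticAt_P' L hw).differentiableAt.hasDerivAt
  have h3 := h2.pow 2
  have h4 := (((h1.pow 3).const_mul 4).sub (h1.const_mul L.g₂)).sub_const L.g₃
  have heq : (fun x => 4 * L.weierstrassP x ^ 3 - L.g₂ * L.weierstrassP x - L.g₃) =ᶠ[𝓝 w]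
      (L.derivWeierstrassP ^ 2) := by
    filter_upwards [hopen.mem_nhds hw] with x hx
    exact (L.derivWeierstrassP_sq x hx).symm
  have h5 := (h3.congr_of_eventuallyEq heq).unique h4
  apply mul_left_cancel₀ hne
  simp only [Nat.cast_ofNat, Nat.reduceSub, pow_one] at h5
  linear_combination h5 / 2

/-- `℘'' = 6 ℘² - g₂/2` off the lattice.  Proof: differentiate `PeriodPair.derivWeierstrassP_sq`
(an identity of analytic functions on the open set `Λᶜ`): `2 ℘' ℘'' = (12 ℘² - g₂) ℘'`;
`℘' ≠ 0` on a punctured neighbourhood of `z` (`order_P'_ne_top` +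
`meromorphicOrderAt_ne_top_iff_eventually_ne_zero`), so the identity holds on a punctured
neighbourhood and, by continuity of both sides, at `z`. -/
theorem deriv_P' (L : PeriodPair) {z : ℂ} (hz : z ∉ L.lattice) :
    deriv L.derivWeierstrassP z = 6 * L.weierstrassP z ^ 2 - L.g₂ / 2 := by
  have hopen : IsOpen ((L.lattice : Set ℂ)ᶜ) := L.isClosed_lattice.isOpen_compl
  have hev : deriv L.derivWeierstrassP =ᶠ[𝓝[≠] z]
      fun w => 6 * L.weierstrassP w ^ 2 - L.g₂ / 2 := by
    have h1 : ∀ᶠ w in 𝓝[≠] z, L.derivWeierstrassP w ≠ 0 :=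
      (meromorphicOrderAt_ne_top_iff_eventually_ne_zero (L.meromorphic_derivWeierstrassP z)).1
        (order_P'_ne_top L z)
    have h2 : ∀ᶠ w in 𝓝[≠] z, w ∉ L.lattice :=
      eventually_nhdsWithin_of_eventually_nhds (hopen.mem_nhds hz)
    filter_upwards [h1, h2] with w hw1 hw2 using Deriv_key L hw2 hw1
  have hc1 : ContinuousAt (deriv L.derivWeierstrassP) z := (analyticAt_P' L hz).deriv.continuousAt
  have hc2 : ContinuousAt (fun w => 6 * L.weierstrassP w ^ 2 - L.g₂ / 2) z :=
    ((continuousAt_const.mul ((analyticAt_P L hz).continuousAt.pow 2)).sub continuousAt_const)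
  exact tendsto_nhds_unique_of_eventuallyEq (hc1.tendsto.mono_left nhdsWithin_le_nhds)
    (hc2.tendsto.mono_left nhdsWithin_le_nhds) hev

theorem hasDerivAt_P' (L : PeriodPair) {z : ℂ} (hz : z ∉ L.lattice) :
    HasDerivAt L.derivWeierstrassP (6 * L.weierstrassP z ^ 2 - L.g₂ / 2) z := by
  rw [← deriv_P' L hz]
  exact (analyticAt_P' L hz).differentiableAt.hasDerivAt

end Fermat.Agent.S15.Dict.AN
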