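/-
S15 / Dict / AN : the sums `∑ (l - x)⁻⁴`, `∑ (l - x)⁻⁶` in terms of `℘ x`.  Architect helper260.
-/
import Fermat.Agent.S15.Dict.AN.Deriv

set_option autoImplicit false

namespace Fermat.Agent.S15.Dict.AN

open Filter Topology

/-- Taylor coefficients of `℘` at `x ∉ Λ`: from `PeriodPair.hasFPowerSeriesOnBall_weierstrassP`
(the `i`-th coefficient of `weierstrassPSeries x` is `(i+1) * sumInvPow x (i+2)` for `i ≠ 0`) and
`HasFPowerSeriesAt.derivSeries`/`AnalyticAt.iteratedDeriv`-type lemmas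
(`HasFPowerSeriesAt.eq_formalMultilinearSeries`, `iteratedDeriv_eq ...`). -/
theorem iteratedDeriv_P (L : PeriodPair) {x : ℂ} (hx : x ∉ L.lattice) (i : ℕ) (hi : i ≠ 0) :
    iteratedDeriv i L.weierstrassP x = (i.factorial : ℂ) * ((i + 1 : ℂ) * L.sumInvPow x (i + 2)) := by
  have hopen : (L.lattice : Set ℂ)ᶜ ∈ 𝓝 x := L.isClosed_lattice.isOpen_compl.mem_nhds hx
  obtain ⟨r, h₁, h₂⟩ := Metric.nhds_basis_closedBall.mem_iff.mp hopen
  lift r to NNReal using h₁.le
  have hF := (L.hasFPowerSeriesOnBall_weierstrassP x r h₁ h₂).hasFPowerSeriesAt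
  have hA : AnalyticAt ℂ L.weierstrassP x := L.analyticOnNhd_weierstrassP x hx
  have h := congr($(hA.hasFPowerSeriesAt.eq_formalMultilinearSeries hF).coeff i)
  simp only [PeriodPair.weierstrassPSeries, FormalMultilinearSeries.coeff_ofScalars, hi,
    if_false] at h
  have hf : (i.factorial : ℂ) ≠ 0 := by exact_mod_cast Nat.factorial_ne_zero i
  rw [← h]
  field_simp

private theorem SumInvPow_hasDerivAt_P (L : PeriodPair) {z : ℂ} (hz : z ∉ L.lattice) :
    HasDerivAt L.weierstrassP (L.derivWeierstrassP z) z := by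
  have h2 := (L.analyticOnNhd_weierstrassP z hz).differentiableAt.hasDerivAt
  rwa [L.deriv_weierstrassP] at h2

/-- `iteratedDeriv 2 ℘ = 6 ℘² - g₂/2` off `Λ`. -/
theorem iteratedDeriv_two_P (L : PeriodPair) {x : ℂ} (hx : x ∉ L.lattice) :
    iteratedDeriv 2 L.weierstrassP x = 6 * L.weierstrassP x ^ 2 - L.g₂ / 2 := by
  rw [iteratedDeriv_succ', L.deriv_weierstrassP, iteratedDeriv_one]
  exact deriv_P' L hx

/-- `iteratedDeriv 4 ℘ = 120 ℘³ - 18 g₂ ℘ - 12 g₃` off `Λ`. -/
theorem iteratedDeriv_four_P (L : PeriodPair) {x : ℂ} (hx : x ∉ L.lattice) :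
    iteratedDeriv 4 L.weierstrassP x =
      120 * L.weierstrassP x ^ 3 - 18 * L.g₂ * L.weierstrassP x - 12 * L.g₃ := by
  have hopen : ∀ᶠ z in 𝓝 x, z ∉ L.lattice := L.isClosed_lattice.isOpen_compl.mem_nhds hx
  have e1 : deriv L.derivWeierstrassP =ᶠ[𝓝 x] fun z => 6 * L.weierstrassP z ^ 2 - L.g₂ / 2 :=
    hopen.mono fun z hz => deriv_P' L hz
  have e2 : deriv (fun z => 6 * L.weierstrassP z ^ 2 - L.g₂ / 2) =ᶠ[𝓝 x]
      fun z => 12 * (L.weierstrassP z * L.derivWeierstrassP z) :=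
    hopen.mono fun z hz => by
      have h : HasDerivAt (fun z => 6 * L.weierstrassP z ^ 2 - L.g₂ / 2)
          (6 * (((2 : ℕ) : ℂ) * L.weierstrassP z ^ (2 - 1) * L.derivWeierstrassP z)) z :=
        (((SumInvPow_hasDerivAt_P L hz).pow 2).const_mul 6).sub_const (L.g₂ / 2)
      rw [h.deriv]
      push_cast
      ring
  rw [iteratedDeriv_succ', L.deriv_weierstrassP, iteratedDeriv_succ', e1.iteratedDeriv_eq,
    iteratedDeriv_succ', iteratedDeriv_one, e2.deriv_eq]
  have h : HasDerivAt (fun z => 12 * (L.weierstrassP z * L.derivWeierstrassP z))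
      (12 * (L.derivWeierstrassP x * L.derivWeierstrassP x +
        L.weierstrassP x * (6 * L.weierstrassP x ^ 2 - L.g₂ / 2))) x :=
    (((SumInvPow_hasDerivAt_P L hx).mul (hasDerivAt_P' L hx)).const_mul 12)
  rw [h.deriv]
  have hsq := L.derivWeierstrassP_sq x hx
  linear_combination 12 * hsq

theorem sumInvPow_four (L : PeriodPair) {x : ℂ} (hx : x ∉ L.lattice) :
    L.sumInvPow x 4 = L.weierstrassP x ^ 2 - L.g₂ / 12 := by
  have h1 := iteratedDeriv_P L hx 2 (by norm_num)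
  have h2 := iteratedDeriv_two_P L hx
  rw [h2] at h1
  norm_num [Nat.factorial] at h1
  linear_combination -h1 / 6

theorem sumInvPow_six (L : PeriodPair) {x : ℂ} (hx : x ∉ L.lattice) :
    L.sumInvPow x 6 = L.weierstrassP x ^ 3 - 3 / 20 * L.g₂ * L.weierstrassP x - L.g₃ / 10 := by
  have h1 := iteratedDeriv_P L hx 4 (by norm_num)
  have h2 := iteratedDeriv_four_P L hx
  rw [h2] at h1
  norm_num [Nat.factorial] at h1
  linear_combination -h1 / 120

end Fermat.Agent.S15.Dict.AN
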