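/-
S15 / Dict / AN : the duplication formula.  Architect helper260.
-/
import Fermat.Agent.S15.Dict.AN.Coset.Half
import Fermat.Agent.S15.Dict.AN.Half.Alg

set_option autoImplicit false

namespace Fermat.Agent.S15.Dict.AN

/-- `℘(z - h) - ℘(-h) = ℘(z + h) - ℘ h` for a half period `h`. -/
private theorem Dup_half_term (L : PeriodPair) (z : ℂ) {h : ℂ} (hh : 2 * h ∈ L.lattice) :
    L.weierstrassP (z - h) - L.weierstrassP (-h)
      = L.weierstrassP (z + h) - L.weierstrassP h := by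
  have e : L.weierstrassP (z + h) = L.weierstrassP (z - h) :=
    P_eq_of_sub_mem L (by rwa [show z + h - (z - h) = 2 * h by ring])
  rw [L.weierstrassP_neg, e]

/-- `4 ℘(2z) = ℘ z + ∑_{i=1}^{3} (℘(z + h_i) - e_i)`, `h = (ω₁/2, ω₂/2, (ω₁+ω₂)/2)`.
Proof: `(isCosetDecomp_half L).P_eq z`, `Fin.sum_univ_four`, `P_scale (1/2)` at `2z`
(`℘_{½L}(z) = 4 ℘_L(2z)`), `℘(z - h) = ℘(z + h)` (`P_eq_of_sub_mem`, `2h ∈ Λ`), `℘(-h) = ℘ h`,
`℘ 0 = 0`. -/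
theorem four_mul_P_two_mul (L : PeriodPair) (z : ℂ) :
    4 * L.weierstrassP (2 * z) = L.weierstrassP z
      + (L.weierstrassP (z + L.ω₁ / 2) - L.weierstrassP (L.ω₁ / 2))
      + (L.weierstrassP (z + L.ω₂ / 2) - L.weierstrassP (L.ω₂ / 2))
      + (L.weierstrassP (z + (L.ω₁ + L.ω₂) / 2) - L.weierstrassP ((L.ω₁ + L.ω₂) / 2)) := by
  have H := isHalf_std L
  have h1 := (isCosetDecomp_half L).P_eq z
  have h2 := P_scale (1 / 2) (by norm_num) L (2 * z)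
  rw [show (1 / 2 : ℂ) * (2 * z) = z by ring] at h2
  rw [h2, Fin.sum_univ_four] at h1
  simp only [Matrix.cons_val_zero, Matrix.cons_val_one, Matrix.cons_val] at h1
  rw [Dup_half_term L z H.two₁, Dup_half_term L z H.two₂, Dup_half_term L z H.two₃, sub_zero,
    neg_zero, L.weierstrassP_zero, sub_zero] at h1
  rw [← h1]
  norm_num

/-- the algebra of the duplication formula. -/
private theorem Dup_alg (P2 x e₁ e₂ e₃ u₁ u₂ u₃ g₂ g₃ : ℂ) (hs : e₁ + e₂ + e₃ = 0)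
    (hg₂ : g₂ = -4 * (e₁ * e₂ + e₁ * e₃ + e₂ * e₃)) (hg₃ : g₃ = 4 * (e₁ * e₂ * e₃))
    (h4 : 4 * P2 = x + u₁ + u₂ + u₃)
    (m1 : u₁ * (x - e₁) = (e₁ - e₂) * (e₁ - e₃)) (m2 : u₂ * (x - e₂) = (e₂ - e₁) * (e₂ - e₃))
    (m3 : u₃ * (x - e₃) = (e₃ - e₁) * (e₃ - e₂)) :
    P2 * (4 * x ^ 3 - g₂ * x - g₃) = (x ^ 2 + g₂ / 4) ^ 2 + 2 * g₃ * x := by
  obtain rfl : e₃ = -e₁ - e₂ := by linear_combination hs
  subst hg₂ hg₃
  linear_combination ((x - e₁) * (x - e₂) * (x - (-e₁ - e₂))) * h4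
    + ((x - e₂) * (x - (-e₁ - e₂))) * m1 + ((x - e₁) * (x - (-e₁ - e₂))) * m2
    + ((x - e₁) * (x - e₂)) * m3

/-- **Duplication formula**: `℘(2z) (4℘³ - g₂℘ - g₃) = (℘² + g₂/4)² + 2 g₃ ℘`.
Proof: `2z ∉ Λ` gives `z ∉ Λ`, `z + h_i ∉ Λ`.  With `x = ℘ z`, `u_i = ℘(z + h_i) - e_i`:
`u_i (x - e_i) = (e_i - e_j)(e_i - e_l)` (`IsHalf.mul_eq` for `isHalf_std L` and its permutations),
`4℘(2z) = x + u₁ + u₂ + u₃`, `4x³ - g₂x - g₃ = 4∏(x - e_i)` (`IsHalf.cubic`), and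
`IsHalf.sum_e, g₂_eq, g₃_eq`; finish with `linear_combination`. -/
theorem P_two_mul (L : PeriodPair) {z : ℂ} (hz : 2 * z ∉ L.lattice) :
    L.weierstrassP (2 * z) * (4 * L.weierstrassP z ^ 3 - L.g₂ * L.weierstrassP z - L.g₃)
      = (L.weierstrassP z ^ 2 + L.g₂ / 4) ^ 2 + 2 * L.g₃ * L.weierstrassP z := by
  have H := isHalf_std L
  have hz0 : z ∉ L.lattice := fun h => hz (by
    rw [two_mul]
    exact L.lattice.add_mem h h)
  have hzh : ∀ h : ℂ, 2 * h ∈ L.lattice → z + h ∉ L.lattice := fun h hh h' => hz (by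
    have := L.lattice.sub_mem (L.lattice.add_mem h' h') hh
    rwa [show z + h + (z + h) - 2 * h = 2 * z by ring] at this)
  exact Dup_alg _ _ _ _ _ _ _ _ _ _ H.sum_e H.g₂_eq H.g₃_eq (four_mul_P_two_mul L z)
    (H.mul_eq hz0 (hzh _ H.two₁)) (H.swap₁₂.mul_eq hz0 (hzh _ H.two₂))
    (H.rot.rot.mul_eq hz0 (hzh _ H.two₃))

end Fermat.Agent.S15.Dict.AN
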