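/-
S15 / Dict / AN : the statement of the analytic half of the moduli dictionary.
Architect helper260.  FROZEN INTERFACE (consumed by S15/Dict/{Alg,Loc,Place}).
-/
import Fermat.Agent.S24.Analytic.Defs

set_option autoImplicit false

namespace Fermat.Agent.S15.Dict.AN

open UpperHalfPlane

/-- `g₂` of the quotient curve: `a + 10 ∑_{k=1}^{N-1} (6 x_k² - a/2)`. -/
noncomputable def aIso (a : ℂ) (N : ℕ) (x : ℕ → ℂ) : ℂ :=
  a + 10 * ∑ k ∈ Finset.Ico 1 N, (6 * x k ^ 2 - a / 2)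

/-- `g₃` of the quotient curve: `b + ∑_{k=1}^{N-1} (140 x_k³ - 21 a x_k - 14 b)`. -/
noncomputable def bIso (a b : ℂ) (N : ℕ) (x : ℕ → ℂ) : ℂ :=
  b + ∑ k ∈ Finset.Ico 1 N, (140 * x k ^ 3 - 21 * a * x k - 14 * b)

/-- **The analytic half of the moduli dictionary**, in `x`-only form.
`y² = 4x³ - a x - b` a complex elliptic curve, `x k` (`1 ≤ k ≤ N-1`) the `x`-coordinates of the
multiples `kQ` of a point of exact order `N`, encoded by the duplication formula, the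
`x(P+Q) + x(P-Q)` recursion and `x_{N-1} = x_1`.  Then there is `τ` with `j(τ) = j(E)`,
`j(Nτ) = j(E/⟨Q⟩)`, where `E/⟨Q⟩ : y² = 4x³ - a' x - b'`, and
`Δ' ∏ (4x_k³ - a x_k - b)² = Δ^N`. -/
def MainStatement : Prop :=
  ∀ (a b : ℂ) (N : ℕ) (x : ℕ → ℂ), a ^ 3 - 27 * b ^ 2 ≠ 0 → N.Prime → 5 ≤ N →
    4 * x 1 ^ 3 - a * x 1 - b ≠ 0 →
    x 2 * (4 * x 1 ^ 3 - a * x 1 - b) = (x 1 ^ 2 + a / 4) ^ 2 + 2 * b * x 1 →
    (∀ k, 2 ≤ k → k + 2 ≤ N → x k ≠ x 1 ∧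
      (x (k + 1) + x (k - 1)) * (x k - x 1) ^ 2
        = 2 * (x k * x 1 - a / 4) * (x k + x 1) - b) →
    x (N - 1) = x 1 →
    ∃ τ τ' : ℍ, (τ' : ℂ) = N * (τ : ℂ) ∧
      Fermat.Agent.S24.jfun τ * (a ^ 3 - 27 * b ^ 2) = 1728 * a ^ 3 ∧
      aIso a N x ^ 3 - 27 * bIso a b N x ^ 2 ≠ 0 ∧
      Fermat.Agent.S24.jfun τ' * (aIso a N x ^ 3 - 27 * bIso a b N x ^ 2)
        = 1728 * aIso a N x ^ 3 ∧
      (aIso a N x ^ 3 - 27 * bIso a b N x ^ 2) *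
          ∏ k ∈ Finset.Ico 1 N, (4 * x k ^ 3 - a * x k - b) ^ 2
        = (a ^ 3 - 27 * b ^ 2) ^ N

end Fermat.Agent.S15.Dict.AN
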