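/-
S15 / Dict / AN : the Weierstrass function is onto.  Architect helper260.
-/
import Fermat.Agent.S15.Dict.AN.Tools.LiouvilleCor
import Fermat.Agent.S15.Dict.AN.Tools.Order
import Fermat.Agent.S15.Dict.AN.Tools.POrder

set_option autoImplicit false

namespace Fermat.Agent.S15.Dict.AN

open Filter Topology

/-- `℘ : ℂ ∖ Λ → ℂ` is onto.  Proof: otherwise `f := 1/(℘ - c)` is meromorphic, periodic, analytic
off `Λ` (denominator analytic and non-zero), of order `+2` at `Λ` (`meromorphicOrderAt_inv`,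
`order_P_sub_const`); by `liouville` it is a constant `c'`, with limit `0` at `0`
(order `> 0`), so `c' = 0`; but `f z ≠ 0` at any `z ∉ Λ` (e.g. `ω₁/2`). -/
theorem P_surjective (L : PeriodPair) (c : ℂ) : ∃ z, z ∉ L.lattice ∧ L.weierstrassP z = c := by
  by_contra hcon
  have hne : ∀ z, z ∉ L.lattice → L.weierstrassP z - c ≠ 0 := fun z hz h0 =>
    hcon ⟨z, hz, sub_eq_zero.mp h0⟩
  set g : ℂ → ℂ := fun z => L.weierstrassP z - c with hg
  have hmg : Meromorphic g := fun z => (L.meromorphic_weierstrassP z).sub (MeromorphicAt.const c z)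
  have hmf : Meromorphic g⁻¹ := fun z => (hmg z).inv
  have hang : ∀ z, z ∉ L.lattice → AnalyticAt ℂ g⁻¹ z := fun z hz =>
    ((analyticAt_P L hz).sub analyticAt_const).inv (hne z hz)
  have hper : ∀ z : ℂ, ∀ l ∈ L.lattice, g⁻¹ (z + l) = g⁻¹ z := by
    intro z l hl
    simp only [Pi.inv_apply, hg, P_add_mem L z hl]
  have hordL : ∀ z ∈ L.lattice, meromorphicOrderAt g⁻¹ z = ((2 : ℤ) : WithTop ℤ) := by
    intro z hz
    rw [meromorphicOrderAt_inv, order_P_sub_const L hz c]
    rfl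
  have hord : ∀ z, 0 ≤ meromorphicOrderAt g⁻¹ z := by
    intro z
    by_cases hz : z ∈ L.lattice
    · rw [hordL z hz]
      exact_mod_cast (by norm_num : (0 : ℤ) ≤ 2)
    · exact (hang z hz).meromorphicOrderAt_nonneg
  obtain ⟨c', h1, h2⟩ := liouville L hmf hper hord
  have h0 : Tendsto g⁻¹ (𝓝[≠] (0 : ℂ)) (𝓝 0) := by
    apply tendsto_zero_of_meromorphicOrderAt_pos
    rw [hordL 0 (zero_mem _)]
    exact_mod_cast (by norm_num : (0 : ℤ) < 2)
  have hc' : c' = 0 := tendsto_nhds_unique (h2 0) h0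
  have hz₁ := L.ω₁_div_two_notMem_lattice
  have h3 := h1 _ (hang _ hz₁).continuousAt
  rw [hc', Pi.inv_apply, inv_eq_zero] at h3
  exact hne _ hz₁ h3

end Fermat.Agent.S15.Dict.AN
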