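/-
S15 / Dict / AN : from the `x`-only recursion to a torsion point of `ℂ/Λ`.  Architect helper260.
-/
import Fermat.Agent.S15.Dict.AN.AddSub.Main
import Fermat.Agent.S15.Dict.AN.Dup
import Fermat.Agent.S15.Dict.AN.Surj

set_option autoImplicit false

namespace Fermat.Agent.S15.Dict.AN

/-- Choose `z0 ∉ Λ` with `℘ z0 = x 1` (`P_surjective`).
* `2 z0 ∉ Λ`: otherwise `℘' z0 = 0` (`P'_eq_zero_of_two_mul_mem`), against `h0` and
  `PeriodPair.derivWeierstrassP_sq`.  `℘(2 z0) = x 2` by `P_two_mul`, `h1`, cancel with `h0`.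
* induction on `k` (`2 ≤ k ≤ N-2`), knowing the claim for `k-1` and `k`: `x k ≠ x 1` gives
  `(k+1) z0 ∉ Λ` (otherwise `℘(k z0) = ℘(z0)` by `P_eq_of_add_mem`); `P_add_add_P_sub` at
  `(z, w) = (k z0, z0)` and `h2 k` give `℘((k+1) z0) = x (k+1)` after cancelling `(x k - x 1)²`.
* `N z0 ∈ Λ`: otherwise `P_add_add_P_sub` at `((N-1) z0, z0)` with `x (N-1) = x 1` gives
  `0 = 2 (x₁² - g₂/4)(2 x₁) - g₃ = 4x₁³ - g₂x₁ - g₃`, against `h0`. -/
theorem exists_torsion (L : PeriodPair) (N : ℕ) (hN : 3 ≤ N) (x : ℕ → ℂ)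
    (h0 : 4 * x 1 ^ 3 - L.g₂ * x 1 - L.g₃ ≠ 0)
    (h1 : x 2 * (4 * x 1 ^ 3 - L.g₂ * x 1 - L.g₃) = (x 1 ^ 2 + L.g₂ / 4) ^ 2 + 2 * L.g₃ * x 1)
    (h2 : ∀ k, 2 ≤ k → k + 2 ≤ N → x k ≠ x 1 ∧
      (x (k + 1) + x (k - 1)) * (x k - x 1) ^ 2
        = 2 * (x k * x 1 - L.g₂ / 4) * (x k + x 1) - L.g₃)
    (h3 : x (N - 1) = x 1) :
    ∃ z0 : ℂ, (∀ k : ℕ, 1 ≤ k → k < N →
        (k : ℂ) * z0 ∉ L.lattice ∧ L.weierstrassP ((k : ℂ) * z0) = x k) ∧
      (N : ℂ) * z0 ∈ L.lattice := by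
  obtain ⟨z0, hz0, hP1⟩ := P_surjective L (x 1)
  refine ⟨z0, ?_⟩
  -- the claim
  obtain ⟨c, hc⟩ : ∃ c : ℕ → Prop, ∀ k, c k ↔
      ((k : ℂ) * z0 ∉ L.lattice ∧ L.weierstrassP ((k : ℂ) * z0) = x k) := ⟨_, fun _ => Iff.rfl⟩
  have c1 : c 1 := by
    rw [hc, Nat.cast_one, one_mul]
    exact ⟨hz0, hP1⟩
  have h2z : 2 * z0 ∉ L.lattice := by
    intro h
    have e1 := P'_eq_zero_of_two_mul_mem L h
    have e2 := L.derivWeierstrassP_sq z0 hz0
    rw [e1, hP1] at e2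
    apply h0
    rw [← e2]
    ring
  have c2 : c 2 := by
    rw [hc, Nat.cast_two]
    refine ⟨h2z, ?_⟩
    have e1 := P_two_mul L h2z
    rw [hP1, ← h1] at e1
    exact mul_right_cancel₀ h0 e1
  -- the induction step
  have step : ∀ j, 1 ≤ j → j + 3 ≤ N → c j → c (j + 1) → c (j + 2) := by
    intro j hj hjN cj cj1
    rw [hc] at cj cj1 ⊢
    obtain ⟨hne, hrec⟩ := h2 (j + 1) (by omega) (by omega)
    rw [Nat.add_sub_cancel] at hrec
    have ea : ((j + 2 : ℕ) : ℂ) * z0 = ((j + 1 : ℕ) : ℂ) * z0 + z0 := by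
      push_cast
      ring
    have es : ((j : ℕ) : ℂ) * z0 = ((j + 1 : ℕ) : ℂ) * z0 - z0 := by
      push_cast
      ring
    have hnot : ((j + 1 : ℕ) : ℂ) * z0 + z0 ∉ L.lattice := by
      intro h
      apply hne
      rw [← cj1.2, ← hP1]
      exact P_eq_of_add_mem L h
    have hnot' : ((j + 1 : ℕ) : ℂ) * z0 - z0 ∉ L.lattice := by
      rw [← es]
      exact cj.1
    have e1 := P_add_add_P_sub L cj1.1 hz0 hnot hnot'
    rw [← es, cj.2, cj1.2, hP1, ← hrec] at e1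
    have hsq : (x (j + 1) - x 1) ^ 2 ≠ 0 := pow_ne_zero _ (sub_ne_zero.2 hne)
    have e2 := mul_right_cancel₀ hsq e1
    rw [ea]
    exact ⟨hnot, add_right_cancel e2⟩
  have pair : ∀ k, 1 ≤ k → k + 1 < N → c k ∧ c (k + 1) := by
    intro k hk
    induction k, hk using Nat.le_induction with
    | base => exact fun _ => ⟨c1, c2⟩
    | succ k hk ih =>
      intro hkN
      obtain ⟨a, b⟩ := ih (by omega)
      exact ⟨b, step k hk (by omega) a b⟩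
  have all : ∀ k, 1 ≤ k → k < N → c k := by
    intro k hk hkN
    by_cases h : k + 1 < N
    · exact (pair k hk h).1
    · obtain ⟨j, rfl⟩ : ∃ j, k = j + 1 := ⟨k - 1, by omega⟩
      exact (pair j (by omega) hkN).2
  refine ⟨fun k hk hkN => (hc k).1 (all k hk hkN), ?_⟩
  by_contra hN0
  obtain ⟨M, rfl⟩ : ∃ M, N = M + 3 := ⟨N - 3, by omega⟩
  have a1 := (hc _).1 (all (M + 1) (by omega) (by omega))
  have a2 := (hc _).1 (all (M + 2) (by omega) (by omega))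
  have hx : x (M + 2) = x 1 := h3
  have ea : ((M + 3 : ℕ) : ℂ) * z0 = ((M + 2 : ℕ) : ℂ) * z0 + z0 := by
    push_cast
    ring
  have es : ((M + 1 : ℕ) : ℂ) * z0 = ((M + 2 : ℕ) : ℂ) * z0 - z0 := by
    push_cast
    ring
  have e1 := P_add_add_P_sub L a2.1 hz0 (by rw [← ea]; exact hN0) (by rw [← es]; exact a1.1)
  rw [a2.2, hP1, hx, sub_self] at e1
  apply h0
  linear_combination -e1

end Fermat.Agent.S15.Dict.AN
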