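/-
S15 / Dict / AN : proof of the analytic half of the moduli dictionary.  Architect helper260.
-/
import Fermat.Agent.S15.Dict.AN.Statement
import Fermat.Agent.S15.Dict.AN.Torsion
import Fermat.Agent.S15.Dict.AN.Star.Disc
import Fermat.Agent.S15.Dict.AN.Coset.Invariants
import Fermat.Agent.S15.Dict.AN.Unif.Exists
import Fermat.Agent.S15.Dict.AN.Unif.Basis

set_option autoImplicit false

namespace Fermat.Agent.S15.Dict.AN

open UpperHalfPlane

theorem mainStatement : MainStatement := by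
  intro a b N x hD hN h5 h0 h1 h2 h3
  obtain ⟨L, rfl, rfl⟩ := exists_periodPair a b hD
  obtain ⟨z0, hk, hNz⟩ := exists_torsion L N (by omega) x h0 h1 h2 h3
  have hz0 : z0 ∉ L.lattice := by
    have := (hk 1 le_rfl (by omega)).1
    rwa [Nat.cast_one, one_mul] at this
  obtain ⟨M, hML, him, hM'⟩ := exists_adapted_basis L N hN z0 hz0 hNz
  obtain ⟨L', hL'⟩ : ∃ L' : PeriodPair, L' = divFirst M N hN.ne_zero := ⟨_, rfl⟩
  have D : CyclicData L L' N z0 :=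
    ⟨hN.odd_of_ne_two (by omega), by rw [hL']; exact hM', fun k h h' => (hk k h h').1, hNz⟩
  have hN0 : (N : ℂ) ≠ 0 := Nat.cast_ne_zero.2 hN.ne_zero
  have hω : M.ω₁ ≠ 0 := ω₁_ne_zero M
  have him' : 0 < ((N : ℂ) * (M.ω₂ / M.ω₁)).im := by
    have e : ((N : ℂ) * (M.ω₂ / M.ω₁)).im = (N : ℝ) * (M.ω₂ / M.ω₁).im := by
      rw [Complex.mul_im, Complex.natCast_re, Complex.natCast_im, zero_mul, add_zero]
    rw [e]
    exact mul_pos (Nat.cast_pos.2 hN.pos) him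
  have ea : aIso L.g₂ N x = L'.g₂ := by
    rw [D.g₂_eq, aIso]
    congr 2
    apply Finset.sum_congr rfl
    intro k hk'
    rw [Finset.mem_Ico] at hk'
    rw [(hk k hk'.1 hk'.2).2]
  have eb : bIso L.g₂ L.g₃ N x = L'.g₃ := by
    rw [D.g₃_eq, bIso]
    congr 1
    apply Finset.sum_congr rfl
    intro k hk'
    rw [Finset.mem_Ico] at hk'
    rw [(hk k hk'.1 hk'.2).2]
  refine ⟨⟨M.ω₂ / M.ω₁, him⟩, ⟨(N : ℂ) * (M.ω₂ / M.ω₁), him'⟩, rfl, ?_, ?_, ?_, ?_⟩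
  · have h := jfun_mul M ⟨M.ω₂ / M.ω₁, him⟩ (div_mul_cancel₀ _ hω)
    rwa [g₂_congr hML, g₃_congr hML] at h
  · rw [ea, eb]
    exact disc_ne_zero L'
  · rw [ea, eb]
    apply jfun_mul L' ⟨(N : ℂ) * (M.ω₂ / M.ω₁), him'⟩
    rw [hL', divFirst_ω₁, divFirst_ω₂]
    change (N : ℂ) * (M.ω₂ / M.ω₁) * (M.ω₁ / N) = M.ω₂
    field_simp
  · rw [ea, eb, ← D.disc_eq]
    congr 1
    apply Finset.prod_congr rfl
    intro k hk'
    rw [Finset.mem_Ico] at hk'
    rw [(hk k hk'.1 hk'.2).2]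

end Fermat.Agent.S15.Dict.AN
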